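import Mathlib

/-!
# Descent core (Mathlib only)

* `exists_algEquiv_apply_eq_add_one` : an element `c` of an algebraically closed field `Ω`,
  transcendental over a subfield `K`, is moved to `c + 1` by some `K`-automorphism of `Ω`.
* `mem_range_of_fixed_of_index_ne_zero` : if `K` is algebraically closed of characteristic zero,
  an element of `Ω` fixed by a finite-index subgroup of `Aut(Ω/K)` lies in `K`.
* `exists_finset_restrict_bijective` : echelon form of a finite-dimensional subspace of a
  function space `ι → Ω`.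
* `le_span_fixed` : Galois descent for finite-dimensional subspaces of `ι → Ω` stable under a
  set of coordinatewise ring endomorphisms.
-/

set_option autoImplicit false

noncomputable section

namespace Fermat.Agent.Lib.Descent

open MvPolynomial

section Translate

variable {K : Type*} [Field K] {ι : Type*} [DecidableEq ι]

/-- The `K`-algebra endomorphism `X_{i₀} ↦ X_{i₀} + a` of a polynomial ring. -/
def shiftHom (i₀ : ι) (a : K) : MvPolynomial ι K →ₐ[K] MvPolynomial ι K :=
  aeval fun i => if i = i₀ then X i + C a else X i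

theorem shiftHom_X (i₀ : ι) (a : K) (i : ι) :
    shiftHom i₀ a (X i) = if i = i₀ then X i + C a else X i := by
  simp [shiftHom]

theorem shiftHom_C (i₀ : ι) (a b : K) : shiftHom i₀ a (C b) = C b := by
  simp [shiftHom]

theorem shiftHom_comp (i₀ : ι) (a b : K) :
    (shiftHom i₀ a).comp (shiftHom i₀ b) = shiftHom i₀ (a + b) := by
  apply MvPolynomial.algHom_ext
  intro i
  rw [AlgHom.comp_apply, shiftHom_X, shiftHom_X]
  by_cases h : i = i₀
  · simp only [h, if_true, map_add, shiftHom_X, shiftHom_C]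
    rw [add_assoc, ← C_add]
  · simp only [h, if_false, shiftHom_X]

theorem shiftHom_zero (i₀ : ι) : shiftHom i₀ (0 : K) = AlgHom.id K _ := by
  apply MvPolynomial.algHom_ext
  intro i
  rw [shiftHom_X]
  simp

/-- The `K`-algebra automorphism `X_{i₀} ↦ X_{i₀} + a` of a polynomial ring. -/
def shiftEquiv (i₀ : ι) (a : K) : MvPolynomial ι K ≃ₐ[K] MvPolynomial ι K :=
  AlgEquiv.ofAlgHom (shiftHom i₀ a) (shiftHom i₀ (-a))
    (by rw [shiftHom_comp, add_neg_cancel, shiftHom_zero])
    (by rw [shiftHom_comp, neg_add_cancel, shiftHom_zero])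

theorem shiftEquiv_X_self (i₀ : ι) (a : K) : shiftEquiv i₀ a (X i₀) = X i₀ + C a := by
  show shiftHom i₀ a (X i₀) = _
  rw [shiftHom_X, if_pos rfl]

end Translate

/-- **(A)** An element of an algebraically closed field `Ω` which is transcendental over a subfield
`K` is moved to `c + 1` by a `K`-automorphism of `Ω`. -/
theorem exists_algEquiv_apply_eq_add_one {K Ω : Type*} [Field K] [Field Ω] [Algebra K Ω]
    [IsAlgClosed Ω] {c : Ω} (hc : Transcendental K c) : ∃ σ : Ω ≃ₐ[K] Ω, σ c = c + 1 := by
  classical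
  have hs : AlgebraicIndepOn K id ({c} : Set Ω) := by
    let _ : Unique ({c} : Set Ω) := Set.uniqueSingleton c
    exact (algebraicIndependent_unique_type_iff (R := K)
      (x := fun i : ({c} : Set Ω) => id (i : Ω))).mpr hc
  obtain ⟨t, hst, ht⟩ := exists_isTranscendenceBasis_superset hs
  have hct : c ∈ t := hst rfl
  set i₀ : t := ⟨c, hct⟩ with hi₀
  set A := Algebra.adjoin K (Set.range ((↑) : t → Ω)) with hA
  let τ : MvPolynomial t K ≃ₐ[K] MvPolynomial t K := shiftEquiv i₀ 1
  let e : A ≃ₐ[K] A := ht.1.aevalEquiv.symm.trans (τ.trans ht.1.aevalEquiv)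
  let _ : IsAlgClosure A Ω := IsAlgClosed.isAlgClosure_of_transcendence_basis _ ht
  let σ₀ : Ω ≃+* Ω := IsAlgClosure.equivOfEquiv Ω Ω e.toRingEquiv
  have hσ₀ : ∀ s : A, σ₀ (algebraMap A Ω s) = algebraMap A Ω (e s) := fun s =>
    IsAlgClosure.equivOfEquiv_algebraMap Ω Ω e.toRingEquiv s
  have hK : ∀ a : K, σ₀ (algebraMap K Ω a) = algebraMap K Ω a := by
    intro a
    rw [IsScalarTower.algebraMap_apply K A Ω, hσ₀, e.commutes]
  refine ⟨AlgEquiv.ofRingEquiv (f := σ₀) hK, ?_⟩
  show σ₀ c = c + 1
  have h1 : algebraMap A Ω (ht.1.aevalEquiv (X i₀)) = c := by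
    rw [ht.1.algebraMap_aevalEquiv, aeval_X]
  have h2 : e (ht.1.aevalEquiv (X i₀)) = ht.1.aevalEquiv (X i₀ + C 1) := by
    show ht.1.aevalEquiv (τ (ht.1.aevalEquiv.symm (ht.1.aevalEquiv (X i₀)))) = _
    rw [AlgEquiv.symm_apply_apply]
    show ht.1.aevalEquiv (shiftEquiv i₀ 1 (X i₀)) = _
    rw [shiftEquiv_X_self]
  rw [← h1, hσ₀, h2, ht.1.algebraMap_aevalEquiv, map_add, aeval_X, aeval_C]
  simp

/-- The `n`-th power of an automorphism moving `c` to `c + 1` moves `c` to `c + n`. -/
theorem pow_apply_eq_add_natCast {K Ω : Type*} [Field K] [Field Ω] [Algebra K Ω]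
    (σ : Ω ≃ₐ[K] Ω) {c : Ω} (h : σ c = c + 1) (n : ℕ) : (σ ^ n) c = c + n := by
  induction n with
  | zero => simp
  | succ n ih =>
    rw [pow_succ, AlgEquiv.mul_apply, h, map_add, ih, map_one]
    push_cast
    ring

/-- **(B)** If `K` is algebraically closed and `Ω ⊇ K` is an algebraically closed field of
characteristic zero, then an element of `Ω` fixed by a finite-index subgroup of `Aut(Ω/K)` lies in
`K`. -/
theorem mem_range_of_fixed_of_index_ne_zero {K Ω : Type*} [Field K] [Field Ω] [Algebra K Ω]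
    [IsAlgClosed K] [IsAlgClosed Ω] [CharZero Ω] (H : Subgroup (Ω ≃ₐ[K] Ω)) (hH : H.index ≠ 0)
    {c : Ω} (hc : ∀ σ ∈ H, σ c = c) : c ∈ (algebraMap K Ω).range := by
  by_contra hcon
  have htr : Transcendental K c := by
    intro halg
    apply hcon
    have hint : IsIntegral K c := halg.isIntegral
    have hdeg : (minpoly K c).degree = 1 :=
      IsAlgClosed.degree_eq_one_of_irreducible K (minpoly.irreducible hint)
    exact minpoly.mem_range_of_degree_eq_one K c hdeg
  obtain ⟨σ, hσ⟩ := exists_algEquiv_apply_eq_add_one htr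
  obtain ⟨n, hn0, -, hn⟩ := Subgroup.exists_pow_mem_of_index_ne_zero hH σ
  have h1 := hc _ hn
  rw [pow_apply_eq_add_natCast σ hσ] at h1
  have h2 : (n : Ω) = 0 := by
    have := congrArg (fun x => x - c) h1
    simpa using this
  exact hn0.ne' (Nat.cast_eq_zero.mp h2)

section Echelon

variable {Ω : Type*} [Field Ω] {ι : Type*}

/-- **Echelon form.** For a finite-dimensional subspace `W` of a function space `ι → Ω` there is
a finite set `S` of coordinates such that restriction to `S` is bijective on `W`. -/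
theorem exists_finset_restrict_bijective (W : Submodule Ω (ι → Ω)) [FiniteDimensional Ω W] :
    ∃ S : Finset ι, (∀ x ∈ W, (∀ i ∈ S, x i = 0) → x = 0) ∧
      ∀ c : ι → Ω, ∃ x ∈ W, ∀ i ∈ S, x i = c i := by
  classical
  induction hd : Module.finrank Ω W using Nat.strong_induction_on generalizing W with
  | _ d ih =>
    by_cases hW : W = ⊥
    · subst hW
      exact ⟨∅, fun x hx _ => by simpa using hx, fun c => ⟨0, zero_mem _, by simp⟩⟩
    · obtain ⟨w, hwW, hw0⟩ := Submodule.exists_mem_ne_zero_of_ne_bot hW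
      obtain ⟨i₀, hi₀⟩ : ∃ i, w i ≠ 0 := by
        by_contra hcon
        push Not at hcon
        exact hw0 (funext hcon)
      set W₀ : Submodule Ω (ι → Ω) := W ⊓ LinearMap.ker (LinearMap.proj (R := Ω) (φ := fun _ => Ω) i₀)
        with hW₀
      have hle : W₀ ≤ W := inf_le_left
      have hlt : W₀ < W := by
        refine lt_of_le_of_ne hle fun h => ?_
        have : w ∈ W₀ := h ▸ hwW
        exact hi₀ (by simpa [hW₀] using this.2)
      have : FiniteDimensional Ω W₀ := Submodule.finiteDimensional_of_le hle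
      have hfin : Module.finrank Ω W₀ < d := hd ▸ Submodule.finrank_lt_finrank_of_lt hlt
      obtain ⟨S₀, hinj, hsurj⟩ := ih _ hfin W₀ rfl
      refine ⟨insert i₀ S₀, ?_, ?_⟩
      · intro x hx h0
        have hx0 : x ∈ W₀ := ⟨hx, by simpa using h0 i₀ (Finset.mem_insert_self _ _)⟩
        exact hinj x hx0 fun i hi => h0 i (Finset.mem_insert_of_mem hi)
      · intro c
        set x₁ : ι → Ω := (c i₀ / w i₀) • w with hx₁
        have hx₁W : x₁ ∈ W := W.smul_mem _ hwW
        have hx₁i : x₁ i₀ = c i₀ := by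
          simp [hx₁, div_mul_cancel₀ _ hi₀]
        obtain ⟨x₂, hx₂W, hx₂⟩ := hsurj (c - x₁)
        refine ⟨x₁ + x₂, W.add_mem hx₁W (hle hx₂W), ?_⟩
        intro i hi
        rcases Finset.mem_insert.mp hi with rfl | hi
        · have : x₂ i = 0 := by simpa using hx₂W.2
          simp [hx₁i, this]
        · simp [hx₂ i hi]

/-- **Galois descent for subspaces of function spaces.** A finite-dimensional subspace `W` of
`ι → Ω` which is stable under the coordinatewise action of a set `Φ` of ring endomorphisms of `Ω`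
is spanned by its elements all of whose coordinates are fixed by `Φ`. -/
theorem le_span_fixed (W : Submodule Ω (ι → Ω)) [FiniteDimensional Ω W] (Φ : Set (Ω →+* Ω))
    (hΦ : ∀ φ ∈ Φ, ∀ x ∈ W, (fun i => φ (x i)) ∈ W) :
    W ≤ Submodule.span Ω {x | x ∈ W ∧ ∀ φ ∈ Φ, ∀ i, φ (x i) = x i} := by
  classical
  obtain ⟨S, hinj, hsurj⟩ := exists_finset_restrict_bijective W
  choose u huW hu using fun s : ι => hsurj (Pi.single s 1)
  have hfix : ∀ s ∈ S, ∀ φ ∈ Φ, ∀ i, φ (u s i) = u s i := by
    intro s hs φ hφ i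
    have h1 : (fun i => φ (u s i)) - u s ∈ W := W.sub_mem (hΦ φ hφ _ (huW s)) (huW s)
    have h2 := hinj _ h1 (fun j hj => by
      simp only [Pi.sub_apply, hu s j hj]
      by_cases hjs : j = s
      · subst hjs; simp
      · simp [hjs])
    have h3 := congrFun h2 i
    simpa [sub_eq_zero] using h3
  intro x hx
  have hx' : x = ∑ s ∈ S, x s • u s := by
    have h1 : x - ∑ s ∈ S, x s • u s ∈ W :=
      W.sub_mem hx (W.sum_mem fun s _ => W.smul_mem _ (huW s))
    have h2 := hinj _ h1 (fun j hj => by
      simp only [Pi.sub_apply, Finset.sum_apply, Pi.smul_apply, smul_eq_mul]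
      rw [Finset.sum_eq_single j]
      · rw [hu j j hj]; simp
      · intro s hs hsj
        rw [hu s j hj]; simp [hsj.symm]
      · intro hj'; exact absurd hj hj')
    exact sub_eq_zero.mp h2
  rw [hx']
  exact Submodule.sum_mem _ fun s hs =>
    Submodule.smul_mem _ _ (Submodule.subset_span ⟨huW s, hfix s hs⟩)

end Echelon

end Fermat.Agent.Lib.Descent
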