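import Mathlib
import Fermat.Prelude.Def_ModularCurve_LaurentCoeff
import Fermat.Agent.Lib.Descent.Core

/-!
# Descent for Laurent series

`K ⊆ Ω` fields, `c = coeffMap (algebraMap K Ω) : K((q)) → Ω((q))`.

* `exists_pow_eq_of_dvd_order` : formal `n`-th roots in `k((q))`, `k` algebraically closed,
  `(n : k) ≠ 0`.
* `exists_root_of_unity_mul_of_pow_eq` : two `n`-th roots differ by a constant root of unity.
* `mem_range_coeffMap_of_pow_eq` : an `n`-th root in `Ω((q))` of a series with coefficients in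
  an algebraically closed `K` has coefficients in `K`.
* `laurent_descent` : a finite-dimensional `Ω`-subspace of `Ω((q))` which is stable under the
  coefficientwise action of a finite-index subgroup of `Aut(Ω/K)` is spanned by series with
  coefficients in `K`.
-/

set_option autoImplicit false

noncomputable section

namespace Fermat.Agent.Lib.Descent

open ModularCurve HahnSeries

/-! ### Formal `n`-th roots -/

section Roots

variable {k : Type*} [Field k]

/-- `n`-th roots of power series with constant coefficient `1` (Hensel). -/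
theorem powerSeries_exists_pow_eq {n : ℕ} (hn : n ≠ 0) (hnk : (n : k) ≠ 0) (u : PowerSeries k)
    (hu : PowerSeries.constantCoeff u = 1) : ∃ v : PowerSeries k, v ^ n = u := by
  classical
  have hH : HenselianRing (PowerSeries k) (Ideal.span {(PowerSeries.X : PowerSeries k)}) :=
    inferInstance
  let f : Polynomial (PowerSeries k) := Polynomial.X ^ n - Polynomial.C u
  have hf : f.Monic := Polynomial.monic_X_pow_sub_C u hn
  have h1 : f.eval 1 ∈ Ideal.span {(PowerSeries.X : PowerSeries k)} := by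
    rw [Ideal.mem_span_singleton, PowerSeries.X_dvd_iff]
    simp [f, hu]
  have h2 : IsUnit (Ideal.Quotient.mk (Ideal.span {(PowerSeries.X : PowerSeries k)})
      (f.derivative.eval 1)) := by
    apply IsUnit.map
    have : f.derivative.eval 1 = (n : PowerSeries k) := by
      simp [f, Polynomial.derivative_X_pow]
    rw [this, PowerSeries.isUnit_iff_constantCoeff]
    simpa using hnk
  obtain ⟨a, ha, -⟩ := hH.is_henselian f hf 1 h1 h2
  refine ⟨a, ?_⟩
  have : f.eval a = 0 := ha
  simpa [f, sub_eq_zero] using this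

/-- Formal `n`-th roots of Laurent series over an algebraically closed field. -/
theorem exists_pow_eq_of_dvd_order [IsAlgClosed k] {n : ℕ} (hn : n ≠ 0) (hnk : (n : k) ≠ 0)
    (x : LaurentSeries k) (hx : (n : ℤ) ∣ x.order) : ∃ R : LaurentSeries k, R ^ n = x := by
  rcases eq_or_ne x 0 with rfl | hx0
  · exact ⟨0, by simp [hn]⟩
  obtain ⟨m, hm⟩ := hx
  set P := LaurentSeries.powerSeriesPart x with hP
  set a : k := PowerSeries.constantCoeff P with ha
  have ha0 : a ≠ 0 := by
    have h1 : a = x.coeff x.order := by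
      rw [ha, hP, ← PowerSeries.coeff_zero_eq_constantCoeff_apply,
        LaurentSeries.powerSeriesPart_coeff]
      simp
    rw [h1]
    exact fun h => hx0 (HahnSeries.coeff_order_eq_zero.mp h)
  obtain ⟨b, hb⟩ := IsAlgClosed.exists_pow_nat_eq a (Nat.pos_of_ne_zero hn)
  obtain ⟨v, hv⟩ := powerSeries_exists_pow_eq hn hnk (PowerSeries.C a⁻¹ * P) (by
    simp [← ha, inv_mul_cancel₀ ha0])
  refine ⟨HahnSeries.single m 1 * HahnSeries.ofPowerSeries ℤ k (PowerSeries.C b * v), ?_⟩
  have h3 : (PowerSeries.C b * v) ^ n = P := by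
    rw [mul_pow, hv, ← map_pow, hb, ← mul_assoc, ← map_mul, mul_inv_cancel₀ ha0, map_one, one_mul]
  have h5 : (HahnSeries.ofPowerSeries ℤ k (PowerSeries.C b * v)) ^ n
      = HahnSeries.ofPowerSeries ℤ k P := by
    rw [← map_pow, h3]
  rw [mul_pow, h5, HahnSeries.single_pow, one_pow]
  have h4 : n • m = x.order := by rw [hm]; simp
  rw [h4]
  exact LaurentSeries.single_order_mul_powerSeriesPart x

/-- An element of an extension field of an algebraically closed field `K` which is integral over
`K` lies in `K`. -/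
theorem mem_range_of_isIntegral {K L : Type*} [Field K] [IsAlgClosed K] [Field L] [Algebra K L]
    {x : L} (hx : IsIntegral K x) : x ∈ (algebraMap K L).range :=
  minpoly.mem_range_of_degree_eq_one K x
    (IsAlgClosed.degree_eq_one_of_irreducible K (minpoly.irreducible hx))

/-- Two `n`-th roots of the same Laurent series differ by a constant root of unity. -/
theorem exists_root_of_unity_mul_of_pow_eq [IsAlgClosed k] {n : ℕ} (hn : n ≠ 0)
    {x y : LaurentSeries k} (h : x ^ n = y ^ n) :
    ∃ ζ : k, ζ ^ n = 1 ∧ x = HahnSeries.C ζ * y := by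
  rcases eq_or_ne y 0 with rfl | hy
  · refine ⟨1, one_pow _, ?_⟩
    rw [zero_pow hn] at h
    rw [pow_eq_zero_iff hn] at h
    simp [h]
  have hz : (x / y) ^ n = 1 := by rw [div_pow, h, div_self (pow_ne_zero _ hy)]
  have hint : IsIntegral k (x / y) := by
    refine ⟨Polynomial.X ^ n - Polynomial.C 1, Polynomial.monic_X_pow_sub_C 1 hn, ?_⟩
    simp [hz]
  obtain ⟨ζ, hζ⟩ := mem_range_of_isIntegral hint
  rw [LaurentSeries.algebraMap_apply] at hζ
  refine ⟨ζ, ?_, ?_⟩
  · have h1 : (HahnSeries.C (ζ ^ n) : LaurentSeries k) = HahnSeries.C 1 := by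
      rw [map_pow, hζ, hz, map_one]
    exact HahnSeries.C_injective h1
  · rw [hζ, div_mul_cancel₀ _ hy]

end Roots

/-! ### Coefficientwise maps -/

section Coeff

variable {K Ω : Type*} [Field K] [Field Ω]

/-- Coefficientwise maps along injective ring homomorphisms preserve the order. -/
theorem order_coeffMap (φ : K →+* Ω) (x : LaurentSeries K) : (coeffMap φ x).order = x.order := by
  rcases eq_or_ne x 0 with rfl | hx
  · simp
  have hcx : coeffMap φ x ≠ 0 := fun h => hx (by
    ext i
    have := congrArg (fun y : LaurentSeries Ω => y.coeff i) h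
    simpa using this)
  apply le_antisymm
  · apply HahnSeries.order_le_of_coeff_ne_zero
    rw [coeffMap_coeff]
    exact fun h => hx (HahnSeries.coeff_order_eq_zero.mp (φ.injective (by simpa using h)))
  · apply HahnSeries.order_le_of_coeff_ne_zero
    intro h
    apply hcx
    apply HahnSeries.coeff_order_eq_zero.mp
    rw [coeffMap_coeff, h, map_zero]

theorem coeffMap_injective (φ : K →+* Ω) : Function.Injective (coeffMap φ) := by
  intro x y h
  ext i
  have := congrArg (fun z : LaurentSeries Ω => z.coeff i) h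
  exact φ.injective (by simpa using this)

theorem coeffMap_C (φ : K →+* Ω) (a : K) :
    coeffMap φ (HahnSeries.C a) = HahnSeries.C (φ a) := by
  show coeffMap φ (HahnSeries.single 0 a) = HahnSeries.single 0 (φ a)
  exact coeffMap_single φ 0 a

variable [Algebra K Ω]

/-- A Laurent series all of whose coefficients lie in `K` is in the image of `K((q))`. -/
theorem mem_range_coeffMap_of_coeff (x : LaurentSeries Ω)
    (h : ∀ i, x.coeff i ∈ (algebraMap K Ω).range) :
    x ∈ Set.range (coeffMap (algebraMap K Ω)) := by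
  have hinj : Function.Injective (algebraMap K Ω) := (algebraMap K Ω).injective
  let g : ZeroHom Ω K :=
    { toFun := Function.invFun (algebraMap K Ω)
      map_zero' := by
        have := Function.leftInverse_invFun hinj (0 : K)
        rwa [map_zero] at this }
  refine ⟨x.map g, ?_⟩
  ext i
  rw [coeffMap_coeff]
  exact Function.invFun_eq (h i)

/-- The coefficient family of a Laurent series, as a linear map. -/
def coeffLin (Ω : Type*) [Field Ω] : LaurentSeries Ω →ₗ[Ω] (ℤ → Ω) where
  toFun x := x.coeff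
  map_add' x y := by ext; simp
  map_smul' r x := by ext; simp

theorem coeffLin_apply (x : LaurentSeries Ω) (i : ℤ) : coeffLin Ω x i = x.coeff i := rfl

theorem coeffLin_injective : Function.Injective (coeffLin Ω) := by
  intro x y h
  ext i
  exact congrFun h i

/-- **Descent for Laurent series.** A finite-dimensional `Ω`-subspace of `Ω((q))` which is stable
under the coefficientwise action of a finite-index subgroup `H` of `Aut(Ω/K)` (`K ⊆ Ω`
algebraically closed of characteristic zero) is spanned by its elements with coefficients in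
`K`. -/
theorem laurent_descent [IsAlgClosed K] [IsAlgClosed Ω] [CharZero Ω]
    (H : Subgroup (Ω ≃ₐ[K] Ω)) (hH : H.index ≠ 0)
    (W : Submodule Ω (LaurentSeries Ω)) [FiniteDimensional Ω W]
    (hW : ∀ σ ∈ H, ∀ x ∈ W, coeffMap ((σ : Ω ≃ₐ[K] Ω) : Ω →+* Ω) x ∈ W) :
    W ≤ Submodule.span Ω {x | x ∈ W ∧ x ∈ Set.range (coeffMap (algebraMap K Ω))} := by
  set W' : Submodule Ω (ℤ → Ω) := W.map (coeffLin Ω) with hW'
  have : FiniteDimensional Ω W' := by rw [hW']; infer_instance
  set Φ : Set (Ω →+* Ω) := {φ | ∃ σ ∈ H, φ = ((σ : Ω ≃ₐ[K] Ω) : Ω →+* Ω)} with hΦ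
  have hstab : ∀ φ ∈ Φ, ∀ x ∈ W', (fun i => φ (x i)) ∈ W' := by
    rintro φ ⟨σ, hσ, rfl⟩ x' ⟨x, hx, rfl⟩
    exact ⟨coeffMap ((σ : Ω ≃ₐ[K] Ω) : Ω →+* Ω) x, hW σ hσ x hx, rfl⟩
  have key := le_span_fixed W' Φ hstab
  set T : Set (LaurentSeries Ω) :=
    {x | x ∈ W ∧ x ∈ Set.range (coeffMap (algebraMap K Ω))} with hT
  have hsub : {x | x ∈ W' ∧ ∀ φ ∈ Φ, ∀ i, φ (x i) = x i} ⊆ (coeffLin Ω) '' T := by
    rintro x' ⟨⟨x, hx, rfl⟩, hfix⟩
    refine ⟨x, ⟨hx, ?_⟩, rfl⟩
    apply mem_range_coeffMap_of_coeff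
    intro i
    apply mem_range_of_fixed_of_index_ne_zero H hH
    intro σ hσ
    exact hfix _ ⟨σ, hσ, rfl⟩ i
  intro x hx
  have h1 : coeffLin Ω x ∈ Submodule.span Ω ((coeffLin Ω) '' T) :=
    Submodule.span_mono hsub (key ⟨x, hx, rfl⟩)
  rw [← Submodule.map_span] at h1
  obtain ⟨z, hz, hzx⟩ := h1
  rwa [← coeffLin_injective hzx]

/-- A nonzero finite-dimensional `H`-stable subspace of `Ω((q))` contains a nonzero series with
coefficients in `K`. -/
theorem exists_coeffMap_mem_of_ne_bot [IsAlgClosed K] [IsAlgClosed Ω] [CharZero Ω]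
    (H : Subgroup (Ω ≃ₐ[K] Ω)) (hH : H.index ≠ 0)
    (W : Submodule Ω (LaurentSeries Ω)) [FiniteDimensional Ω W]
    (hW : ∀ σ ∈ H, ∀ x ∈ W, coeffMap ((σ : Ω ≃ₐ[K] Ω) : Ω →+* Ω) x ∈ W) (hne : W ≠ ⊥) :
    ∃ y : LaurentSeries K, y ≠ 0 ∧ coeffMap (algebraMap K Ω) y ∈ W := by
  by_contra hcon
  push Not at hcon
  apply hne
  rw [eq_bot_iff]
  refine (laurent_descent H hH W hW).trans ?_
  rw [Submodule.span_le]
  rintro x ⟨hxW, y, rfl⟩
  by_cases hy : y = 0
  · simp [hy]
  · exact absurd hxW (hcon y hy)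

/-- An `n`-th root in `Ω((q))` of a Laurent series with coefficients in an algebraically closed
subfield `K` has coefficients in `K`. -/
theorem mem_range_coeffMap_of_pow_eq [IsAlgClosed K] [IsAlgClosed Ω] {n : ℕ} (hn : n ≠ 0)
    (hnK : (n : K) ≠ 0) {R : LaurentSeries Ω} {f : LaurentSeries K}
    (h : R ^ n = coeffMap (algebraMap K Ω) f) :
    R ∈ Set.range (coeffMap (algebraMap K Ω)) := by
  have hdvd : (n : ℤ) ∣ f.order := by
    have h1 := congrArg HahnSeries.order h
    rw [HahnSeries.order_pow, order_coeffMap] at h1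
    exact ⟨R.order, by rw [← h1]; simp⟩
  obtain ⟨y₀, hy₀⟩ := exists_pow_eq_of_dvd_order hn hnK f hdvd
  have h2 : R ^ n = (coeffMap (algebraMap K Ω) y₀) ^ n := by rw [h, ← map_pow, hy₀]
  obtain ⟨ζ, hζ, hR⟩ := exists_root_of_unity_mul_of_pow_eq hn h2
  have hint : IsIntegral K ζ := by
    refine ⟨Polynomial.X ^ n - Polynomial.C 1, Polynomial.monic_X_pow_sub_C 1 hn, ?_⟩
    simp [hζ]
  obtain ⟨ζ₀, rfl⟩ := mem_range_of_isIntegral hint
  exact ⟨HahnSeries.C ζ₀ * y₀, by rw [map_mul, coeffMap_C, hR]⟩

end Coeff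


/-! ### Linear disjointness: `Ω·F_K ∩ K((q)) = F_K` -/

section Disjoint

variable {K Ω : Type*} [Field K] [Field Ω] [Algebra K Ω]

theorem coeff_C_mul (a : Ω) (x : LaurentSeries Ω) (m : ℤ) :
    (HahnSeries.C a * x).coeff m = a * x.coeff m := by
  rw [HahnSeries.C_mul_eq_smul]
  simp

/-- The map `(z_i)_i ↦ ∑ b_i · c(z_i)` attached to a `K`-basis `b` of `Ω`. -/
def basisSum {ι : Type*} (b : Module.Basis ι K Ω) : (ι →₀ LaurentSeries K) →+ LaurentSeries Ω :=
  Finsupp.liftAddHom fun i =>
    (AddMonoidHom.mulLeft (HahnSeries.C (b i))).comp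
      ((coeffMap (algebraMap K Ω) : LaurentSeries K →+* LaurentSeries Ω) : LaurentSeries K →+ _)

theorem basisSum_single {ι : Type*} (b : Module.Basis ι K Ω) (i : ι) (z : LaurentSeries K) :
    basisSum b (Finsupp.single i z) = HahnSeries.C (b i) * coeffMap (algebraMap K Ω) z := by
  simp [basisSum]

theorem basisSum_apply {ι : Type*} (b : Module.Basis ι K Ω) (z : ι →₀ LaurentSeries K) :
    basisSum b z = ∑ i ∈ z.support, HahnSeries.C (b i) * coeffMap (algebraMap K Ω) (z i) := by
  simp [basisSum, Finsupp.sum]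

/-- Coefficientwise linear independence. -/
theorem basisSum_eq_zero {ι : Type*} (b : Module.Basis ι K Ω) (z : ι →₀ LaurentSeries K)
    (h : basisSum b z = 0) : z = 0 := by
  ext i m
  have h1 : ∑ j ∈ z.support, ((z j).coeff m) • b j = 0 := by
    have h2 : coeffLin Ω (basisSum b z) m = 0 := by rw [h]; rfl
    rw [basisSum_apply, map_sum, Finset.sum_apply] at h2
    simp only [coeffLin_apply, coeff_C_mul, coeffMap_coeff] at h2
    rw [← h2]
    refine Finset.sum_congr rfl fun j _ => ?_
    rw [Algebra.smul_def, mul_comm]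
  have h3 := Fintype.linearIndependent_iff.mp
    (b.linearIndependent.comp (fun j : z.support => (j : ι)) Subtype.val_injective)
    (fun j => (z j).coeff m) (by
      rw [← h1, ← Finset.sum_coe_sort z.support (fun j => ((z j).coeff m) • b j)]
      rfl)
  by_cases hi : i ∈ z.support
  · simpa using h3 ⟨i, hi⟩
  · rw [Finsupp.notMem_support_iff] at hi
    simp [hi]

variable (FK : IntermediateField K (LaurentSeries K))

theorem C_mem (a : K) : HahnSeries.C a ∈ FK := by
  rw [← LaurentSeries.algebraMap_apply]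
  exact FK.algebraMap_mem a

/-- `C ω * c f` is a `basisSum` of a family in `F_K`. -/
theorem exists_basisSum_eq_C_mul {ι : Type*} (b : Module.Basis ι K Ω) (ω : Ω)
    {f : LaurentSeries K} (hf : f ∈ FK) :
    ∃ z : ι →₀ LaurentSeries K, (∀ i, z i ∈ FK) ∧
      basisSum b z = HahnSeries.C ω * coeffMap (algebraMap K Ω) f := by
  classical
  refine ⟨(b.repr ω).mapRange (fun γ => HahnSeries.C γ * f) (by simp), fun i => ?_, ?_⟩
  · rw [Finsupp.mapRange_apply]
    exact FK.mul_mem (C_mem FK _) hf
  · have h1 : ω = ∑ i ∈ (b.repr ω).support, (b.repr ω i) • b i := by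
      conv_lhs => rw [← b.linearCombination_repr ω]
      rfl
    rw [basisSum_apply]
    have hsup : ((b.repr ω).mapRange (fun γ => HahnSeries.C γ * f) (by simp)).support
        ⊆ (b.repr ω).support := Finsupp.support_mapRange
    rw [Finset.sum_subset hsup (fun i _ hi => by
      rw [Finsupp.notMem_support_iff] at hi
      rw [hi]; simp)]
    conv_rhs => rw [h1, map_sum, Finset.sum_mul]
    refine Finset.sum_congr rfl fun i _ => ?_
    rw [Finsupp.mapRange_apply, map_mul, coeffMap_C, Algebra.smul_def, map_mul]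
    ring

/-- The multiplicative monoid of the elements `C ω * c f`, `ω ∈ Ω`, `f ∈ F_K`. -/
def prodMonoid : Submonoid (LaurentSeries Ω) where
  carrier := {A | ∃ ω : Ω, ∃ f ∈ FK, A = HahnSeries.C ω * coeffMap (algebraMap K Ω) f}
  one_mem' := ⟨1, 1, FK.one_mem, by simp⟩
  mul_mem' := by
    rintro _ _ ⟨ω, f, hf, rfl⟩ ⟨ω', f', hf', rfl⟩
    exact ⟨ω * ω', f * f', FK.mul_mem hf hf', by rw [map_mul, map_mul]; ring⟩

/-- Every element of the `Ω`-algebra generated by `c(F_K)` is a `basisSum` of a family in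
`F_K`. -/
theorem exists_basisSum_of_mem_adjoin {ι : Type*} (b : Module.Basis ι K Ω) {A : LaurentSeries Ω}
    (hA : A ∈ Algebra.adjoin Ω ((coeffMap (algebraMap K Ω)) '' (FK : Set (LaurentSeries K)))) :
    ∃ z : ι →₀ LaurentSeries K, (∀ i, z i ∈ FK) ∧ basisSum b z = A := by
  classical
  have h1 : A ∈ (prodMonoid (Ω := Ω) FK).subsemiringClosure := by
    induction hA using Algebra.adjoin_induction with
    | mem A hA =>
      obtain ⟨f, hf, rfl⟩ := hA
      exact (Submonoid.subsemiringClosure_mem _).mpr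
        (AddSubmonoid.subset_closure (show _ ∈ prodMonoid (Ω := Ω) FK from ⟨1, f, hf, by simp⟩))
    | algebraMap ω =>
      rw [LaurentSeries.algebraMap_apply]
      exact (Submonoid.subsemiringClosure_mem _).mpr
        (AddSubmonoid.subset_closure (show _ ∈ prodMonoid (Ω := Ω) FK from
          ⟨ω, 1, FK.one_mem, by simp⟩))
    | add A B _ _ hA hB => exact add_mem hA hB
    | mul A B _ _ hA hB => exact mul_mem hA hB
  rw [Submonoid.subsemiringClosure_mem] at h1
  have key : ∀ B ∈ AddSubmonoid.closure ((prodMonoid (Ω := Ω) FK : Submonoid _) : Set _),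
      ∃ z : ι →₀ LaurentSeries K, (∀ i, z i ∈ FK) ∧ basisSum b z = B := by
    intro B hB
    induction hB using AddSubmonoid.closure_induction with
    | mem B hB =>
      obtain ⟨ω, f, hf, rfl⟩ := hB
      exact exists_basisSum_eq_C_mul FK b ω hf
    | zero => exact ⟨0, fun i => by simp, by simp⟩
    | add B C _ _ hB hC =>
      obtain ⟨z₁, hz₁, rfl⟩ := hB
      obtain ⟨z₂, hz₂, rfl⟩ := hC
      exact ⟨z₁ + z₂, fun i => by rw [Finsupp.add_apply]; exact FK.add_mem (hz₁ i) (hz₂ i),
        map_add _ _ _⟩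
  exact key A h1

theorem basisSum_mul_left {ι : Type*} (b : Module.Basis ι K Ω) (y : LaurentSeries K)
    (z : ι →₀ LaurentSeries K) :
    basisSum b (z.mapRange (fun x => y * x) (by simp))
      = coeffMap (algebraMap K Ω) y * basisSum b z := by
  classical
  induction z using Finsupp.induction_linear with
  | zero => simp
  | add z₁ z₂ h₁ h₂ =>
    rw [Finsupp.mapRange_add (by intro a b; rw [mul_add]), map_add, h₁, h₂, map_add, mul_add]
  | single i x =>
    rw [Finsupp.mapRange_single, basisSum_single, basisSum_single, map_mul]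
    ring

/-- **Linear disjointness.** If `c y` lies in the field generated over `Ω` by `c(F_K)`, then
`y ∈ F_K`. -/
theorem mem_of_coeffMap_mem_adjoin {y : LaurentSeries K}
    (hy : coeffMap (algebraMap K Ω) y ∈
      IntermediateField.adjoin Ω ((coeffMap (algebraMap K Ω)) '' (FK : Set (LaurentSeries K)))) :
    y ∈ FK := by
  classical
  set c := coeffMap (algebraMap K Ω) with hc
  let b := Module.Free.chooseBasis K Ω
  obtain ⟨r, hr, s, hs, hrs⟩ := IntermediateField.mem_adjoin_iff_div.mp hy
  rcases eq_or_ne s 0 with rfl | hs0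
  · rw [div_zero] at hrs
    have : y = 0 := coeffMap_injective (algebraMap K Ω) (by rw [map_zero]; exact hrs)
    rw [this]; exact zero_mem _
  obtain ⟨zr, hzr, rfl⟩ := exists_basisSum_of_mem_adjoin FK b hr
  obtain ⟨zs, hzs, rfl⟩ := exists_basisSum_of_mem_adjoin FK b hs
  have h1 : c y * basisSum b zs = basisSum b zr := by
    rw [hrs, div_mul_cancel₀ _ hs0]
  rw [← basisSum_mul_left, ← sub_eq_zero, ← map_sub] at h1
  have h2 := basisSum_eq_zero b _ h1
  have hzs0 : zs ≠ 0 := fun h => hs0 (by rw [h, map_zero])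
  obtain ⟨i, hi⟩ : ∃ i, zs i ≠ 0 := by
    by_contra hcon
    push Not at hcon
    exact hzs0 (Finsupp.ext hcon)
  have h3 : y * zs i - zr i = 0 := by
    have := DFunLike.congr_fun h2 i
    simpa using this
  have h4 : y = zr i / zs i := by
    rw [eq_div_iff hi]
    exact sub_eq_zero.mp h3
  rw [h4]
  exact FK.div_mem (hzr i) (hzs i)

end Disjoint

/-! ### The modular base change `laurentBaseChange` -/

section BaseChange

variable {K Ω : Type*} [Field K] [Field Ω] [Algebra K Ω] [Algebra ℚ K] [Algebra ℚ Ω]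
variable (F₀ : IntermediateField ℚ (LaurentSeries ℚ))

theorem coeffMap_coeffEmb_eq (x : LaurentSeries ℚ) :
    coeffMap (algebraMap K Ω) (coeffEmb K x) = coeffEmb Ω x := by
  rw [coeffEmb, coeffEmb, coeffMap_coeffMap]
  exact coeffMap_congr (RingHom.ext_rat _ _) x

/-- `c` maps `K·F₀` into `Ω·F₀`. -/
theorem coeffMap_mem_laurentBaseChange_of_mem {y : LaurentSeries K}
    (hy : y ∈ laurentBaseChange K F₀) :
    coeffMap (algebraMap K Ω) y ∈ laurentBaseChange Ω F₀ := by
  rw [mem_laurentBaseChange_iff] at hy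
  induction hy using Subfield.closure_induction with
  | mem y hy =>
    rcases hy with ⟨a, rfl⟩ | ⟨z, hz, rfl⟩
    · rw [LaurentSeries.algebraMap_apply, coeffMap_C, ← LaurentSeries.algebraMap_apply]
      exact (laurentBaseChange Ω F₀).algebraMap_mem _
    · rw [coeffMap_coeffEmb_eq]
      exact coeffEmb_mem_laurentBaseChange Ω hz
  | one => simp
  | add x y _ _ hx hy => simpa using add_mem hx hy
  | neg x _ hx => simpa using neg_mem hx
  | inv x _ hx => simpa using inv_mem hx
  | mul x y _ _ hx hy => simpa using mul_mem hx hy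

theorem laurentBaseChange_le_adjoin :
    laurentBaseChange Ω F₀ ≤ IntermediateField.adjoin Ω
      ((coeffMap (algebraMap K Ω)) '' (laurentBaseChange K F₀ : Set (LaurentSeries K))) := by
  rw [laurentBaseChange]
  apply IntermediateField.adjoin.mono
  rintro _ ⟨x, hx, rfl⟩
  exact ⟨coeffEmb K x, coeffEmb_mem_laurentBaseChange K hx, coeffMap_coeffEmb_eq x⟩

/-- **Linear disjointness for the modular fields**: `Ω·F₀ ∩ K((q)) = K·F₀`. -/
theorem mem_laurentBaseChange_of_coeffMap_mem {y : LaurentSeries K}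
    (hy : coeffMap (algebraMap K Ω) y ∈ laurentBaseChange Ω F₀) : y ∈ laurentBaseChange K F₀ :=
  mem_of_coeffMap_mem_adjoin (laurentBaseChange K F₀) (laurentBaseChange_le_adjoin F₀ hy)

theorem coeffMap_mem_laurentBaseChange_iff {y : LaurentSeries K} :
    coeffMap (algebraMap K Ω) y ∈ laurentBaseChange Ω F₀ ↔ y ∈ laurentBaseChange K F₀ :=
  ⟨mem_laurentBaseChange_of_coeffMap_mem F₀, coeffMap_mem_laurentBaseChange_of_mem F₀⟩

end BaseChange

end Fermat.Agent.Lib.Descent
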