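import Mathlib
import Fermat.Agent.S23.FixedField
import Fermat.Prelude.Def_ModularCurve_LaurentCoeff

/-!
# Descent from `ℂ` to `ℚ̄` by finite orbits

* `isAlgebraic_of_finite_orbit` : an element of an algebraically closed field of characteristic
  zero with only finitely many conjugates under all ring automorphisms is algebraic over `ℚ`.
* `exists_mem_algebraic_of_finite_orbit` : a nonzero finite-dimensional `ℂ`-space `V` of Laurent
  series whose coefficientwise `Aut(ℂ)`-translates form a finite set of spaces contains a nonzero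
  series with algebraic coefficients (the unique element of maximal order with leading
  coefficient `1`).
-/

set_option autoImplicit false

namespace Fermat.Agent.Lib.Descent

open ModularCurve

section Algebraic

variable {K : Type*} [Field K] [IsAlgClosed K] [CharZero K]

/-- A transcendental element can be moved to `x + a` for every rational `a`. -/
theorem exists_ringEquiv_add_of_transcendental (x : K) (hx : Transcendental ℚ x) (a : ℚ) :
    ∃ τ : K ≃+* K, τ x = x + (a : K) := by
  let : Algebra (Polynomial ℚ) K := (Polynomial.aeval x).toRingHom.toAlgebra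
  have hinj : Function.Injective (algebraMap (Polynomial ℚ) K) :=
    transcendental_iff_injective.mp hx
  obtain ⟨τ, hτ⟩ := Fermat.Agent.S23.exists_ringEquiv_extending (R := Polynomial ℚ) (K := K) hinj
    (Polynomial.algEquivAevalXAddC a).toRingEquiv
  refine ⟨τ, ?_⟩
  have h := hτ Polynomial.X
  have hX : algebraMap (Polynomial ℚ) K Polynomial.X = x := Polynomial.aeval_X x
  have hX1 : algebraMap (Polynomial ℚ) K
      ((Polynomial.algEquivAevalXAddC a).toRingEquiv Polynomial.X) = x + (a : K) := by
    change Polynomial.aeval x ((Polynomial.algEquivAevalXAddC a) Polynomial.X) = x + (a : K)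
    simp [Polynomial.algEquivAevalXAddC_apply]
  rw [hX, hX1] at h
  exact h

/-- An element with finitely many conjugates under ring automorphisms is algebraic over `ℚ`. -/
theorem isAlgebraic_of_finite_orbit (x : K) (h : (Set.range fun τ : K ≃+* K => τ x).Finite) :
    IsAlgebraic ℚ x := by
  by_contra hx
  have hx' : Transcendental ℚ x := hx
  have hsub : (Set.range fun n : ℕ => x + ((n : ℚ) : K)) ⊆ Set.range fun τ : K ≃+* K => τ x := by
    rintro _ ⟨n, rfl⟩
    obtain ⟨τ, hτ⟩ := exists_ringEquiv_add_of_transcendental x hx' (n : ℚ)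
    exact ⟨τ, hτ⟩
  have hinf : (Set.range fun n : ℕ => x + ((n : ℚ) : K)).Infinite := by
    apply Set.infinite_range_of_injective
    intro m n hmn
    have : ((m : ℚ) : K) = ((n : ℚ) : K) := add_left_cancel hmn
    exact_mod_cast this
  exact hinf (h.subset hsub)

end Algebraic

section Laurent

variable {K : Type*} [Field K]

/-- The orders of the nonzero elements of a finite-dimensional space of Laurent series are
bounded above. -/
theorem exists_order_bound (V : Submodule K (LaurentSeries K)) [FiniteDimensional K V] :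
    ∃ B : ℤ, ∀ f ∈ V, f ≠ 0 → f.order ≤ B := by
  induction hd : Module.finrank K V using Nat.strong_induction_on generalizing V with
  | _ d ih =>
    by_cases hV : ∀ f ∈ V, f = 0
    · exact ⟨0, fun f hf hf0 => absurd (hV f hf) hf0⟩
    · push Not at hV
      obtain ⟨f₀, hf₀V, hf₀⟩ := hV
      set n₀ := f₀.order with hn₀
      let lam : LaurentSeries K →ₗ[K] K :=
        { toFun := fun f => f.coeff n₀
          map_add' := fun f g => by simp
          map_smul' := fun c f => by simp }
      set V₁ : Submodule K (LaurentSeries K) := V ⊓ LinearMap.ker lam with hV₁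
      have hlt : V₁ < V := by
        refine lt_of_le_of_ne inf_le_left ?_
        intro heq
        have : f₀ ∈ V₁ := heq ▸ hf₀V
        have h0 : f₀.coeff n₀ = 0 := this.2
        exact hf₀ (HahnSeries.coeff_order_eq_zero.mp h0)
      have hfin₁ : FiniteDimensional K V₁ := Submodule.finiteDimensional_of_le (le_of_lt hlt)
      have hrank : Module.finrank K V₁ < d := hd ▸ Submodule.finrank_lt_finrank_of_lt hlt
      obtain ⟨B₁, hB₁⟩ := ih _ hrank V₁ rfl
      refine ⟨max n₀ B₁, fun f hf hf0 => ?_⟩
      by_cases hfo : f.order ≤ n₀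
      · exact hfo.trans (le_max_left _ _)
      · have hlt' : n₀ < f.order := not_le.mp hfo
        have hc : f.coeff n₀ = 0 := HahnSeries.coeff_eq_zero_of_lt_order hlt'
        have hmem : f ∈ V₁ := ⟨hf, hc⟩
        exact (hB₁ f hmem hf0).trans (le_max_right _ _)

/-- A nonzero finite-dimensional space of Laurent series contains a unique element of maximal
order with leading coefficient `1`. -/
theorem exists_max_order_normalized (V : Submodule K (LaurentSeries K)) [FiniteDimensional K V]
    (hV : V ≠ ⊥) :
    ∃ (m : ℤ) (f : LaurentSeries K), f ∈ V ∧ f.coeff m = 1 ∧ (∀ k < m, f.coeff k = 0) ∧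
      ∀ g ∈ V, g.coeff m = 1 → (∀ k < m, g.coeff k = 0) → g = f := by
  obtain ⟨B, hB⟩ := exists_order_bound V
  obtain ⟨f₀, hf₀V, hf₀⟩ := (Submodule.ne_bot_iff V).mp hV
  -- the set of orders is nonempty and bounded above
  have hex : ∃ n : ℤ, ∃ f ∈ V, f ≠ 0 ∧ f.order = n := ⟨_, f₀, hf₀V, hf₀, rfl⟩
  obtain ⟨m, ⟨f, hfV, hf0, hfm⟩, hmax⟩ := Int.exists_greatest_of_bdd
    (P := fun n => ∃ f ∈ V, f ≠ 0 ∧ f.order = n)
    ⟨B, fun n ⟨f, hf, hf0, hfn⟩ => hfn ▸ hB f hf hf0⟩ hex
  have hlead : f.coeff m ≠ 0 := by
    rw [← hfm]; exact fun h => hf0 (HahnSeries.coeff_order_eq_zero.mp h)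
  refine ⟨m, (f.coeff m)⁻¹ • f, V.smul_mem _ hfV, ?_, ?_, ?_⟩
  · simp [hlead]
  · intro k hk
    have : f.coeff k = 0 := HahnSeries.coeff_eq_zero_of_lt_order (hfm ▸ hk)
    simp [this]
  · intro g hgV hgm hglt
    by_contra hne
    set h := g - (f.coeff m)⁻¹ • f with hh
    have hhV : h ∈ V := V.sub_mem hgV (V.smul_mem _ hfV)
    have hh0 : h ≠ 0 := sub_ne_zero.mpr hne
    have hle : h.order ≤ m := hmax _ ⟨h, hhV, hh0, rfl⟩
    have hcoeff : ∀ k ≤ m, h.coeff k = 0 := by
      intro k hk
      rcases lt_or_eq_of_le hk with hlt | rfl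
      · have : f.coeff k = 0 := HahnSeries.coeff_eq_zero_of_lt_order (hfm ▸ hlt)
        simp [hh, hglt k hlt, this]
      · simp [hh, hgm, hlead]
    exact hh0 (HahnSeries.coeff_order_eq_zero.mp (hcoeff _ hle))

end Laurent

section Main

variable {K : Type*} [Field K] [IsAlgClosed K] [CharZero K]

/-- **Descent core.**  A nonzero finite-dimensional space `V` of Laurent series over an
algebraically closed field `K` of characteristic zero, whose translates under the coefficientwise
action of the ring automorphisms of `K` form a finite set of spaces, contains a nonzero series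
all of whose coefficients are algebraic over `ℚ`. -/
theorem exists_mem_isAlgebraic_of_finite_orbit (V : Submodule K (LaurentSeries K))
    [FiniteDimensional K V] (hV : V ≠ ⊥)
    (hfin : (Set.range fun τ : K ≃+* K =>
      (fun f => coeffMap (τ : K →+* K) f) '' (V : Set (LaurentSeries K))).Finite) :
    ∃ f ∈ V, f ≠ 0 ∧ ∀ n, IsAlgebraic ℚ (f.coeff n) := by
  classical
  obtain ⟨m, f, hfV, hfm, hflt, huniq⟩ := exists_max_order_normalized V hV
  have hf0 : f ≠ 0 := by
    intro h0
    rw [h0] at hfm
    simp at hfm
  refine ⟨f, hfV, hf0, fun n => ?_⟩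
  -- the translate `τ f` depends only on the translate `τ V`
  have hdep : ∀ τ τ' : K ≃+* K,
      (fun f => coeffMap (τ : K →+* K) f) '' (V : Set (LaurentSeries K)) =
        (fun f => coeffMap (τ' : K →+* K) f) '' (V : Set (LaurentSeries K)) →
      coeffMap (τ : K →+* K) f = coeffMap (τ' : K →+* K) f := by
    intro τ τ' hS
    have hmem : coeffMap (τ' : K →+* K) f ∈
        (fun f => coeffMap (τ : K →+* K) f) '' (V : Set (LaurentSeries K)) := by
      rw [hS]; exact ⟨f, hfV, rfl⟩
    obtain ⟨g, hgV, hg⟩ := hmem
    have hg' : ∀ k, τ (g.coeff k) = τ' (f.coeff k) := by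
      intro k
      have := congrArg (fun s : LaurentSeries K => s.coeff k) hg
      simpa using this
    have hgm : g.coeff m = 1 := by
      have := hg' m
      rw [hfm, map_one] at this
      exact τ.injective (by rw [this, map_one])
    have hglt : ∀ k < m, g.coeff k = 0 := by
      intro k hk
      have := hg' k
      rw [hflt k hk, map_zero] at this
      exact τ.injective (by rw [this, map_zero])
    have hgf : g = f := huniq g hgV hgm hglt
    rw [hgf] at hg
    exact hg
  -- hence the orbit of `f` is finite
  have horb : (Set.range fun τ : K ≃+* K => coeffMap (τ : K →+* K) f).Finite := by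
    let Φ : Set (LaurentSeries K) → LaurentSeries K := fun S =>
      if h : ∃ τ : K ≃+* K, (fun f => coeffMap (τ : K →+* K) f) '' (V : Set (LaurentSeries K)) = S
      then coeffMap (h.choose : K →+* K) f else 0
    refine (hfin.image Φ).subset ?_
    rintro _ ⟨τ, rfl⟩
    refine ⟨_, ⟨τ, rfl⟩, ?_⟩
    have hex : ∃ τ' : K ≃+* K,
        (fun f => coeffMap (τ' : K →+* K) f) '' (V : Set (LaurentSeries K)) =
          (fun f => coeffMap (τ : K →+* K) f) '' (V : Set (LaurentSeries K)) := ⟨τ, rfl⟩
    simp only [Φ, dif_pos hex]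
    exact hdep _ _ hex.choose_spec
  apply isAlgebraic_of_finite_orbit
  refine (horb.image (fun s : LaurentSeries K => s.coeff n)).subset ?_
  rintro _ ⟨τ, rfl⟩
  exact ⟨_, ⟨τ, rfl⟩, by simp⟩

omit [IsAlgClosed K] in
/-- An element of `K` algebraic over `ℚ` lies in the image of any algebraically closed
subfield. -/
theorem mem_range_of_isAlgebraic {L : Type*} [Field L] [IsAlgClosed L] (ι : L →+* K) (x : K)
    (hx : IsAlgebraic ℚ x) : x ∈ ι.range := by
  have : CharZero L := RingHom.charZero ι
  let : Algebra L K := ι.toAlgebra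
  have htower : IsScalarTower ℚ L K := IsScalarTower.of_algebraMap_eq' (Subsingleton.elim _ _)
  exact hx.isIntegral.mem_range_algebraMap_of_minpoly_splits (IsAlgClosed.splits _)

omit [IsAlgClosed K] [CharZero K] in
/-- A Laurent series over `K` with all coefficients in the image of `ι : L →+* K` is the
coefficientwise image of a Laurent series over `L`. -/
theorem exists_coeffMap_eq {L : Type*} [Field L] (ι : L →+* K) (f : LaurentSeries K)
    (hf : ∀ n, f.coeff n ∈ ι.range) : ∃ g : LaurentSeries L, coeffMap ι g = f := by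
  classical
  let s : K → L := fun x => if h : x ∈ ι.range then h.choose else 0
  have hs : ∀ x, x ∈ ι.range → ι (s x) = x := by
    intro x hx
    simp only [s, dif_pos hx]
    exact hx.choose_spec
  have hs0 : s 0 = 0 := by
    apply ι.injective
    rw [hs 0 (Subring.zero_mem _), map_zero]
  let sz : ZeroHom K L := ⟨s, hs0⟩
  refine ⟨f.map sz, ?_⟩
  ext n
  rw [coeffMap_coeff]
  exact hs _ (hf n)

/-- **Descent core, rational form.**  Under the hypotheses of
`exists_mem_isAlgebraic_of_finite_orbit`, `V` contains a nonzero series which is the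
coefficientwise image of a Laurent series over any given algebraically closed subfield
`ι : L →+* K` (e.g. `L = AlgebraicClosure ℚ`). -/
theorem exists_mem_range_coeffMap_of_finite_orbit {L : Type*} [Field L] [IsAlgClosed L]
    (ι : L →+* K) (V : Submodule K (LaurentSeries K)) [FiniteDimensional K V] (hV : V ≠ ⊥)
    (hfin : (Set.range fun τ : K ≃+* K =>
      (fun f => coeffMap (τ : K →+* K) f) '' (V : Set (LaurentSeries K))).Finite) :
    ∃ f ∈ V, f ≠ 0 ∧ ∃ g : LaurentSeries L, coeffMap ι g = f := by
  obtain ⟨f, hfV, hf0, halg⟩ := exists_mem_isAlgebraic_of_finite_orbit V hV hfin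
  exact ⟨f, hfV, hf0, exists_coeffMap_eq ι f (fun n => mem_range_of_isAlgebraic ι _ (halg n))⟩

/-- Variant: it suffices that every translate of `V` belongs to a given finite family of sets. -/
theorem exists_mem_range_coeffMap_of_translates_mem {L : Type*} [Field L] [IsAlgClosed L]
    (ι : L →+* K) (V : Submodule K (LaurentSeries K)) [FiniteDimensional K V] (hV : V ≠ ⊥)
    (𝒮 : Set (Set (LaurentSeries K))) (h𝒮 : 𝒮.Finite)
    (hmem : ∀ τ : K ≃+* K,
      (fun f => coeffMap (τ : K →+* K) f) '' (V : Set (LaurentSeries K)) ∈ 𝒮) :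
    ∃ f ∈ V, f ≠ 0 ∧ ∃ g : LaurentSeries L, coeffMap ι g = f := by
  apply exists_mem_range_coeffMap_of_finite_orbit ι V hV
  refine h𝒮.subset ?_
  rintro _ ⟨τ, rfl⟩
  exact hmem τ

end Main

end Fermat.Agent.Lib.Descent
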