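import Mathlib
import Fermat.Prelude.Def_AlgebraicCurve_Repartitions
import Fermat.Prelude.Def_AlgebraicCurve_BaseChangeGalois
import Fermat.Prelude.Def_ModularCurve_LaurentCoeff
import Fermat.Agent.S24.PlaceBasic
import Fermat.Agent.Lib.Descent.Laurent

/-!
# Descent of Kummer elements from `Ω` to `K`

`K ⊆ Ω` algebraically closed fields of characteristic zero, `F_K ⊆ K((q))`, `F_Ω ⊆ Ω((q))`
function fields with `F_Ω ∩ K((q)) = F_K`, `Aut(Ω/K)` acting on `F_Ω` coefficientwise.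

`kummer_descent` : if `G ∈ F_Ω^×` has divisor `n · D`, its class modulo `Ω^× · (F_Ω^×)^n` is fixed
by a finite-index subgroup of `Aut(Ω/K)`, and Riemann–Roch spaces of `F_Ω` are finite-dimensional
and nonzero for large multiples of an invariant divisor `B`, then `G · a^n ∈ F_K` for some
`a ∈ F_Ω^×`.
-/

set_option autoImplicit false

noncomputable section

namespace Fermat.Agent.Lib.Descent

open ModularCurve AlgebraicCurve HahnSeries Fermat.Agent.S24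

variable {K Ω : Type*} [Field K] [Field Ω] [Algebra K Ω]
variable {FΩ : IntermediateField Ω (LaurentSeries Ω)}

/-- Multiplication by a fixed Laurent series, as an `Ω`-linear map `F_Ω → Ω((q))`. -/
def mulRight (FΩ : IntermediateField Ω (LaurentSeries Ω)) (R : LaurentSeries Ω) :
    FΩ →ₗ[Ω] LaurentSeries Ω where
  toFun a := (a : LaurentSeries Ω) * R
  map_add' a b := by simp [add_mul]
  map_smul' c a := by
    show ((c • a : FΩ) : LaurentSeries Ω) * R = c • ((a : LaurentSeries Ω) * R)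
    rw [← HahnSeries.C_mul_eq_smul, ← mul_assoc]
    congr 1
    rw [Algebra.smul_def]
    show algebraMap Ω (LaurentSeries Ω) c * (a : LaurentSeries Ω) = _
    rw [LaurentSeries.algebraMap_apply]

theorem mulRight_apply (R : LaurentSeries Ω) (a : FΩ) :
    mulRight FΩ R a = (a : LaurentSeries Ω) * R := rfl

theorem coe_algebraMap_eq_C (c : Ω) :
    ((algebraMap Ω FΩ c : FΩ) : LaurentSeries Ω) = HahnSeries.C c := by
  show algebraMap Ω (LaurentSeries Ω) c = _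
  rw [LaurentSeries.algebraMap_apply]

/-- The order of `g • a` at `v` is the order of `a` at `g⁻¹ • v`. -/
theorem ord_smul_eq (g : SemilinearAut Ω FΩ) (v : Place Ω FΩ) (a : FΩ) :
    v.ord (g • a) = (g⁻¹ • v).ord a := by
  have h := SemilinearAut.ord_smul g (g⁻¹ • v) a
  rwa [smul_inv_smul] at h

/-- The Kummer condition is invariant under semilinear automorphisms. -/
theorem dvd_ord_smul {n : ℤ} (g : SemilinearAut Ω FΩ) {G : FΩ}
    (hG : ∀ v : Place Ω FΩ, n ∣ v.ord G) (v : Place Ω FΩ) : n ∣ v.ord (g • G) := by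
  rw [ord_smul_eq]
  exact hG _

/-- If `g • G = c · G · aσ^n` and `n · D = div G`, then `a ↦ (g • a) · aσ` preserves
`L(D + m B)` for every `g`-invariant divisor `B`. -/
theorem smul_mul_mem_riemannRochSpace {n : ℕ} (hn : n ≠ 0) (g : SemilinearAut Ω FΩ)
    {G aσ : FΩ} {cσ : Ω} (hG : G ≠ 0) (hc0 : cσ ≠ 0) (ha0 : aσ ≠ 0)
    (hσG : g • G = algebraMap Ω FΩ cσ * G * aσ ^ n) (D B : Divisor Ω FΩ)
    (hD : ∀ v : Place Ω FΩ, (n : ℤ) * D v = v.ord G)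
    (hBg : ∀ v : Place Ω FΩ, B (g • v) = B v) (m : ℕ) {a : FΩ}
    (ha : a ∈ riemannRochSpace (D + m • B)) :
    g • a * aσ ∈ riemannRochSpace (D + m • B) := by
  have hnZ : (n : ℤ) ≠ 0 := Nat.cast_ne_zero.mpr hn
  have hEv : ∀ v : Place Ω FΩ, (D + m • B) v = D v + m * B v := fun v => by
    rw [Finsupp.add_apply, Finsupp.smul_apply, nsmul_eq_mul]
  rw [mem_riemannRochSpace_iff] at ha ⊢
  intro v
  rcases eq_or_ne a 0 with rfl | ha0'
  · left; simp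
  right
  have hga0 : g • a ≠ 0 := (smul_ne_zero_iff_ne g).mpr ha0'
  have h1 := (ha (g⁻¹ • v)).resolve_left ha0'
  have hBv : B (g⁻¹ • v) = B v := by
    have := hBg (g⁻¹ • v)
    rw [smul_inv_smul] at this
    exact this.symm
  have hcG : algebraMap Ω FΩ cσ * G ≠ 0 := mul_ne_zero ((map_ne_zero _).mpr hc0) hG
  have hDv : D (g⁻¹ • v) = D v + v.ord aσ := by
    have h2 : (n : ℤ) * D (g⁻¹ • v) = (n : ℤ) * (D v + v.ord aσ) := by
      rw [hD (g⁻¹ • v), ← ord_smul_eq, hσG, v.ord_mul hcG (pow_ne_zero _ ha0),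
        v.ord_mul ((map_ne_zero _).mpr hc0) hG, ord_algebraMap, ← zpow_natCast, v.ord_zpow,
        ← hD v]
      ring
    exact mul_left_cancel₀ hnZ h2
  have h3 : v.ord (g • a * aσ) = (g⁻¹ • v).ord a + v.ord aσ := by
    rw [v.ord_mul hga0 ha0, ord_smul_eq]
  rw [hEv, hBv, hDv] at h1
  rw [hEv, h3]
  linarith

theorem kummerStab_mul_aux {F : Type*} [Field F] (n : ℕ) (C C' G A A' : F) :
    C' * (C * G * A ^ n) * A' ^ n = C' * C * G * (A * A') ^ n := by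
  rw [mul_pow]; ring

theorem kummerStab_inv_aux {F : Type*} [Field F] (X P C' G : F) (hC : C' ≠ 0) (hP : P ≠ 0)
    (h : G = C' * X * P) : X = C'⁻¹ * G * P⁻¹ := by
  rw [h]; field_simp

/-- `σ G` and `G` have the same class modulo `Ω^× · (F_Ω^×)^n`. -/
def KummerFix (ρ : (Ω ≃ₐ[K] Ω) →* SemilinearAut Ω FΩ) (n : ℕ) (G : FΩ) (σ : Ω ≃ₐ[K] Ω) : Prop :=
  ∃ (c : Ω) (a : FΩ), c ≠ 0 ∧ a ≠ 0 ∧ ρ σ • G = algebraMap Ω FΩ c * G * a ^ n

theorem kummerFix_one (ρ : (Ω ≃ₐ[K] Ω) →* SemilinearAut Ω FΩ) (n : ℕ) (G : FΩ) :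
    KummerFix ρ n G 1 :=
  ⟨1, 1, one_ne_zero, one_ne_zero, by
    rw [map_one, one_smul, map_one, one_mul, one_pow, mul_one]⟩

theorem kummerFix_mul (ρ : (Ω ≃ₐ[K] Ω) →* SemilinearAut Ω FΩ) (n : ℕ) (G : FΩ)
    {σ τ : Ω ≃ₐ[K] Ω} (hσ : KummerFix ρ n G σ) (hτ : KummerFix ρ n G τ) :
    KummerFix ρ n G (σ * τ) := by
  obtain ⟨c, a, hc, ha, h⟩ := hσ
  obtain ⟨c', a', hc', ha', h'⟩ := hτ
  refine ⟨SemilinearAut.baseAut (ρ σ) c' * c, a * ρ σ • a', mul_ne_zero ?_ hc,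
    mul_ne_zero ha ((smul_ne_zero_iff_ne _).mpr ha'), ?_⟩
  · exact (map_ne_zero _).mpr hc'
  · have h1 : ρ (σ * τ) • G = ρ σ • (algebraMap Ω FΩ c' * G * a' ^ n) := by
      rw [map_mul, mul_smul, h']
    rw [h1, smul_mul', smul_mul', smul_pow', h, SemilinearAut.smul_algebraMap, map_mul]
    exact kummerStab_mul_aux n _ _ _ _ _

theorem kummerFix_inv (ρ : (Ω ≃ₐ[K] Ω) →* SemilinearAut Ω FΩ) (n : ℕ) (G : FΩ)
    {σ : Ω ≃ₐ[K] Ω} (hσ : KummerFix ρ n G σ) : KummerFix ρ n G σ⁻¹ := by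
  obtain ⟨c, a, hc, ha, h⟩ := hσ
  have hb : SemilinearAut.baseAut (ρ σ)⁻¹ c ≠ 0 := (map_ne_zero _).mpr hc
  have ha' : (ρ σ)⁻¹ • a ≠ 0 := (smul_ne_zero_iff_ne _).mpr ha
  refine ⟨(SemilinearAut.baseAut (ρ σ)⁻¹ c)⁻¹, ((ρ σ)⁻¹ • a)⁻¹, inv_ne_zero hb,
    inv_ne_zero ha', ?_⟩
  have h1 : G = algebraMap Ω FΩ (SemilinearAut.baseAut (ρ σ)⁻¹ c) * ((ρ σ)⁻¹ • G)
      * ((ρ σ)⁻¹ • a) ^ n := by
    have h2 : G = (ρ σ)⁻¹ • (algebraMap Ω FΩ c * G * a ^ n) := by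
      rw [← h, inv_smul_smul]
    rw [smul_mul', smul_mul', smul_pow', SemilinearAut.smul_algebraMap] at h2
    exact h2
  have hb' : algebraMap Ω FΩ (SemilinearAut.baseAut (ρ σ)⁻¹ c) ≠ 0 := (map_ne_zero _).mpr hb
  have hp : ((ρ σ)⁻¹ • a) ^ n ≠ 0 := pow_ne_zero _ ha'
  rw [map_inv, map_inv₀, inv_pow]
  exact kummerStab_inv_aux _ _ _ _ hb' hp h1

/-- The subgroup of `Aut(Ω/K)` fixing the class of `G` modulo `Ω^× · (F_Ω^×)^n`. -/
def kummerStabilizer (ρ : (Ω ≃ₐ[K] Ω) →* SemilinearAut Ω FΩ) (n : ℕ) (G : FΩ) :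
    Subgroup (Ω ≃ₐ[K] Ω) where
  carrier := {σ | KummerFix ρ n G σ}
  one_mem' := kummerFix_one ρ n G
  mul_mem' := fun hσ hτ => kummerFix_mul ρ n G hσ hτ
  inv_mem' := fun hσ => kummerFix_inv ρ n G hσ

theorem mem_kummerStabilizer (ρ : (Ω ≃ₐ[K] Ω) →* SemilinearAut Ω FΩ) (n : ℕ) (G : FΩ)
    (σ : Ω ≃ₐ[K] Ω) : σ ∈ kummerStabilizer ρ n G ↔
      ∃ (c : Ω) (a : FΩ), c ≠ 0 ∧ a ≠ 0 ∧ ρ σ • G = algebraMap Ω FΩ c * G * a ^ n :=
  Iff.rfl

theorem kummerFix_inv_mul (ρ : (Ω ≃ₐ[K] Ω) →* SemilinearAut Ω FΩ) (n : ℕ) (G : FΩ)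
    {σ τ : Ω ≃ₐ[K] Ω} (h : ∃ (c : Ω) (a : FΩ), c ≠ 0 ∧ a ≠ 0 ∧
      ρ τ • G = algebraMap Ω FΩ c * (ρ σ • G) * a ^ n) :
    KummerFix ρ n G (σ⁻¹ * τ) := by
  obtain ⟨c, a, hc, ha, h'⟩ := h
  refine ⟨SemilinearAut.baseAut (ρ σ)⁻¹ c, (ρ σ)⁻¹ • a,
    (map_ne_zero _).mpr hc, (smul_ne_zero_iff_ne _).mpr ha, ?_⟩
  have h1 : ρ (σ⁻¹ * τ) • G = (ρ σ)⁻¹ • (ρ τ • G) := by
    rw [map_mul, map_inv, mul_smul]
  rw [h1, h', smul_mul', smul_mul', smul_pow', inv_smul_smul, SemilinearAut.smul_algebraMap]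

/-- If the Kummer classes of the conjugates `σ G` are separated by an invariant with values in a
finite set, then the stabiliser of the class of `G` has finite index. -/
theorem kummerStabilizer_index_ne_zero (ρ : (Ω ≃ₐ[K] Ω) →* SemilinearAut Ω FΩ) (n : ℕ) (G : FΩ)
    {T : Type*} [Finite T] (κ : FΩ → T)
    (hκ : ∀ σ τ : Ω ≃ₐ[K] Ω, κ (ρ σ • G) = κ (ρ τ • G) → ∃ (c : Ω) (a : FΩ), c ≠ 0 ∧ a ≠ 0 ∧
      ρ σ • G = algebraMap Ω FΩ c * (ρ τ • G) * a ^ n) :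
    (kummerStabilizer ρ n G).index ≠ 0 := by
  have hinj : Function.Injective
      (fun q : (Ω ≃ₐ[K] Ω) ⧸ kummerStabilizer ρ n G => κ (ρ (Quotient.out q) • G)) := by
    intro q₁ q₂ h
    have hmem : (Quotient.out q₁)⁻¹ * Quotient.out q₂ ∈ kummerStabilizer ρ n G :=
      kummerFix_inv_mul ρ n G (hκ _ _ h.symm)
    have := QuotientGroup.eq.mpr hmem
    rwa [QuotientGroup.out_eq', QuotientGroup.out_eq'] at this
  have : Finite ((Ω ≃ₐ[K] Ω) ⧸ kummerStabilizer ρ n G) := Finite.of_injective _ hinj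
  exact Subgroup.index_ne_zero_of_finite

variable [IsAlgClosed K] [IsAlgClosed Ω] [CharZero Ω]

/-- **Descent of Kummer elements.** -/
theorem kummer_descent (FK : IntermediateField K (LaurentSeries K))
    (hint : ∀ y : LaurentSeries K, coeffMap (algebraMap K Ω) y ∈ FΩ → y ∈ FK)
    (ρ : (Ω ≃ₐ[K] Ω) → SemilinearAut Ω FΩ)
    (hρ : ∀ (σ : Ω ≃ₐ[K] Ω) (u : FΩ), ((ρ σ • u : FΩ) : LaurentSeries Ω)
      = coeffMap ((σ : Ω ≃ₐ[K] Ω) : Ω →+* Ω) (u : LaurentSeries Ω))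
    (B : Divisor Ω FΩ) (hB : ∀ (σ : Ω ≃ₐ[K] Ω) (v : Place Ω FΩ), B (ρ σ • v) = B v)
    (hfin : ∀ D : Divisor Ω FΩ, FiniteDimensional Ω (riemannRochSpace D))
    (hne : ∀ D : Divisor Ω FΩ, ∃ m : ℕ, riemannRochSpace (D + m • B) ≠ ⊥)
    {n : ℕ} (hn : n ≠ 0) (G : FΩ) (hG : G ≠ 0) (D : Divisor Ω FΩ)
    (hD : ∀ v : Place Ω FΩ, (n : ℤ) * D v = v.ord G)
    (hord : (n : ℤ) ∣ (G : LaurentSeries Ω).order)
    (H : Subgroup (Ω ≃ₐ[K] Ω)) (hH : H.index ≠ 0)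
    (hstab : ∀ σ ∈ H, ∃ (c : Ω) (a : FΩ), c ≠ 0 ∧ a ≠ 0 ∧
      ρ σ • G = algebraMap Ω FΩ c * G * a ^ n) :
    ∃ (a : FΩ) (f : LaurentSeries K), a ≠ 0 ∧ f ≠ 0 ∧ f ∈ FK ∧
      ((G * a ^ n : FΩ) : LaurentSeries Ω) = coeffMap (algebraMap K Ω) f := by
  classical
  have hnΩ : (n : Ω) ≠ 0 := Nat.cast_ne_zero.mpr hn
  obtain ⟨R, hR⟩ := exists_pow_eq_of_dvd_order hn hnΩ (G : LaurentSeries Ω) hord
  have hR0 : R ≠ 0 := by
    rintro rfl
    rw [zero_pow hn] at hR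
    exact hG (Subtype.ext hR.symm)
  obtain ⟨m, hm⟩ := hne D
  set E : Divisor Ω FΩ := D + m • B with hE
  set L : Submodule Ω FΩ := riemannRochSpace E with hL
  have hLfin : FiniteDimensional Ω L := hfin E
  set W : Submodule Ω (LaurentSeries Ω) := L.map (mulRight FΩ R) with hW
  have hWfin : FiniteDimensional Ω W := by rw [hW]; infer_instance
  -- `W` is stable under `H`
  have hWstab : ∀ σ ∈ H, ∀ x ∈ W, coeffMap ((σ : Ω ≃ₐ[K] Ω) : Ω →+* Ω) x ∈ W := by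
    rintro σ hσ _ ⟨a, ha, rfl⟩
    obtain ⟨cσ, aσ, hc0, ha0, hσG⟩ := hstab σ hσ
    obtain ⟨r, hr⟩ := IsAlgClosed.exists_pow_nat_eq cσ (Nat.pos_of_ne_zero hn)
    have hpow : (coeffMap ((σ : Ω ≃ₐ[K] Ω) : Ω →+* Ω) R) ^ n
        = (HahnSeries.C r * (aσ : LaurentSeries Ω) * R) ^ n := by
      rw [← map_pow, hR, ← hρ σ G, hσG, mul_pow, mul_pow, hR, ← map_pow, hr]
      simp only [MulMemClass.coe_mul, SubmonoidClass.coe_pow, coe_algebraMap_eq_C]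
      ring
    obtain ⟨ζ, -, hRσ⟩ := exists_root_of_unity_mul_of_pow_eq hn hpow
    have hmem : ρ σ • a * aσ ∈ L :=
      smul_mul_mem_riemannRochSpace hn (ρ σ) hG hc0 ha0 hσG D B hD (hB σ) m ha
    refine ⟨(ζ * r) • (ρ σ • a * aσ), L.smul_mem _ hmem, ?_⟩
    rw [mulRight_apply, mulRight_apply, map_mul, hRσ, ← hρ σ a]
    have h4 : (((ζ * r) • (ρ σ • a * aσ) : FΩ) : LaurentSeries Ω)
        = HahnSeries.C (ζ * r) *
          (((ρ σ • a : FΩ) : LaurentSeries Ω) * (aσ : LaurentSeries Ω)) := by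
      rw [Algebra.smul_def]
      simp only [MulMemClass.coe_mul, coe_algebraMap_eq_C]
    rw [h4, map_mul]
    generalize ((ρ σ • a : FΩ) : LaurentSeries Ω) = X
    generalize (aσ : LaurentSeries Ω) = Y
    generalize (HahnSeries.C ζ : LaurentSeries Ω) = Z
    generalize (HahnSeries.C r : LaurentSeries Ω) = T
    ring
  -- `W ≠ ⊥`
  have hWne : W ≠ ⊥ := by
    obtain ⟨a, haL, ha0⟩ := Submodule.exists_mem_ne_zero_of_ne_bot hm
    intro hbot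
    have h1 : mulRight FΩ R a ∈ W := ⟨a, haL, rfl⟩
    rw [hbot, Submodule.mem_bot, mulRight_apply] at h1
    rcases mul_eq_zero.mp h1 with h | h
    · exact ha0 (Subtype.ext h)
    · exact hR0 h
  obtain ⟨y, hy0, hyW⟩ := exists_coeffMap_mem_of_ne_bot H hH W hWstab hWne
  obtain ⟨a, -, hay⟩ := hyW
  rw [mulRight_apply] at hay
  have hcy0 : coeffMap (algebraMap K Ω) y ≠ 0 := fun h =>
    hy0 (coeffMap_injective (algebraMap K Ω) (by rw [h, map_zero]))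
  have ha0 : a ≠ 0 := by
    rintro rfl
    apply hcy0
    rw [← hay]
    simp
  have hfin' : ((G * a ^ n : FΩ) : LaurentSeries Ω) = coeffMap (algebraMap K Ω) (y ^ n) := by
    rw [map_pow, ← hay, mul_pow, hR]
    simp only [MulMemClass.coe_mul, SubmonoidClass.coe_pow]
    rw [mul_comm]
  refine ⟨a, y ^ n, ha0, pow_ne_zero _ hy0, hint _ ?_, hfin'⟩
  rw [← hfin']
  exact (G * a ^ n).2

/-- **Descent of Kummer elements**, finiteness form: the stabiliser is produced from an invariant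
`κ` with values in a finite set which separates the Kummer classes of the conjugates of `G`. -/
theorem kummer_descent_of_finite (FK : IntermediateField K (LaurentSeries K))
    (hint : ∀ y : LaurentSeries K, coeffMap (algebraMap K Ω) y ∈ FΩ → y ∈ FK)
    (ρ : (Ω ≃ₐ[K] Ω) →* SemilinearAut Ω FΩ)
    (hρ : ∀ (σ : Ω ≃ₐ[K] Ω) (u : FΩ), ((ρ σ • u : FΩ) : LaurentSeries Ω)
      = coeffMap ((σ : Ω ≃ₐ[K] Ω) : Ω →+* Ω) (u : LaurentSeries Ω))
    (B : Divisor Ω FΩ) (hB : ∀ (σ : Ω ≃ₐ[K] Ω) (v : Place Ω FΩ), B (ρ σ • v) = B v)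
    (hfin : ∀ D : Divisor Ω FΩ, FiniteDimensional Ω (riemannRochSpace D))
    (hne : ∀ D : Divisor Ω FΩ, ∃ m : ℕ, riemannRochSpace (D + m • B) ≠ ⊥)
    {n : ℕ} (hn : n ≠ 0) (G : FΩ) (hG : G ≠ 0) (D : Divisor Ω FΩ)
    (hD : ∀ v : Place Ω FΩ, (n : ℤ) * D v = v.ord G)
    (hord : (n : ℤ) ∣ (G : LaurentSeries Ω).order)
    {T : Type*} [Finite T] (κ : FΩ → T)
    (hκ : ∀ σ τ : Ω ≃ₐ[K] Ω, κ (ρ σ • G) = κ (ρ τ • G) → ∃ (c : Ω) (a : FΩ), c ≠ 0 ∧ a ≠ 0 ∧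
      ρ σ • G = algebraMap Ω FΩ c * (ρ τ • G) * a ^ n) :
    ∃ (a : FΩ) (f : LaurentSeries K), a ≠ 0 ∧ f ≠ 0 ∧ f ∈ FK ∧
      ((G * a ^ n : FΩ) : LaurentSeries Ω) = coeffMap (algebraMap K Ω) f :=
  kummer_descent FK hint ρ hρ B hB hfin hne hn G hG D hD hord (kummerStabilizer ρ n G)
    (kummerStabilizer_index_ne_zero ρ n G κ hκ) (fun _ hσ => hσ)

end Fermat.Agent.Lib.Descent
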