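import Mathlib
import Fermat.Prelude.Def_ModularCurve_ArithmeticGalois
import Fermat.Agent.S24.Counting
import Fermat.Agent.Lib.FF.RRFunctionField
import Fermat.Agent.Lib.Descent.Kummer

/-!
# Descent of Kummer elements: function-field and modular forms of the statement

* `kummer_descent_ff` : `kummer_descent_of_finite` with all Riemann–Roch inputs discharged by
  `Lib/FF/RRFunctionField` (`F_Ω` finite over `Ω(x)`, `x` fixed by the Galois action).
* `descentRho` : the coefficientwise action of `Aut(Ω/K)` on `Ω·F₀` as a homomorphism into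
  the Prelude's `SemilinearAut`.
* `kummer_descent_modular` : the statement for `F_K = K·F₀ ⊆ K((q))`, `F_Ω = Ω·F₀ ⊆ Ω((q))`.
-/

set_option autoImplicit false

noncomputable section

namespace Fermat.Agent.Lib.Descent

open ModularCurve AlgebraicCurve HahnSeries Fermat.Agent.S24 IntermediateField

variable {K Ω : Type*} [Field K] [Field Ω] [Algebra K Ω]
variable {FΩ : IntermediateField Ω (LaurentSeries Ω)}

/-- The `q`-order is a raw valuation of `F_Ω`. -/
theorem isRawVal_order (FΩ : IntermediateField Ω (LaurentSeries Ω)) :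
    Counting.IsRawVal Ω (fun u : FΩ => (u : LaurentSeries Ω).order) where
  map_mul f g hf hg := by
    show ((f * g : FΩ) : LaurentSeries Ω).order = _
    rw [MulMemClass.coe_mul]
    exact HahnSeries.order_mul (fun h => hf (Subtype.ext h)) (fun h => hg (Subtype.ext h))
  map_add f g _ _ hfg := by
    show min _ _ ≤ ((f + g : FΩ) : LaurentSeries Ω).order
    rw [AddMemClass.coe_add]
    exact HahnSeries.min_order_le_order_add (fun h => hfg (Subtype.ext h))
  map_algebraMap a _ := by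
    show ((algebraMap Ω FΩ a : FΩ) : LaurentSeries Ω).order = 0
    rw [coe_algebraMap_eq_C]
    exact HahnSeries.order_C

/-- The `q`-order of a Kummer element is divisible by `n`. -/
theorem dvd_order_of_forall_dvd_ord {n : ℤ} {G : FΩ} (hG : G ≠ 0)
    (hK : ∀ v : Place Ω FΩ, n ∣ v.ord G) : n ∣ (G : LaurentSeries Ω).order := by
  by_cases hnt : ∃ f : FΩ, f ≠ 0 ∧ (f : LaurentSeries Ω).order ≠ 0
  · obtain ⟨m, -, -, hm⟩ := (isRawVal_order FΩ).exists_mul_ord hnt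
    have h : (G : LaurentSeries Ω).order = m * _ := hm G hG
    rw [h]
    exact Dvd.dvd.mul_left (hK _) m
  · push Not at hnt
    rw [hnt G hG]
    exact dvd_zero n

variable [IsAlgClosed K] [IsAlgClosed Ω] [CharZero Ω]

/-- **Descent of Kummer elements, function-field form.** `F_Ω` is finite over `Ω(x)` for a
transcendental `x` fixed by the Galois action. -/
theorem kummer_descent_ff (FK : IntermediateField K (LaurentSeries K))
    (hint : ∀ y : LaurentSeries K, coeffMap (algebraMap K Ω) y ∈ FΩ → y ∈ FK)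
    (ρ : (Ω ≃ₐ[K] Ω) →* SemilinearAut Ω FΩ)
    (hρ : ∀ (σ : Ω ≃ₐ[K] Ω) (u : FΩ), ((ρ σ • u : FΩ) : LaurentSeries Ω)
      = coeffMap ((σ : Ω ≃ₐ[K] Ω) : Ω →+* Ω) (u : LaurentSeries Ω))
    (x : FΩ) (hx : Transcendental Ω x) [FiniteDimensional Ω⟮x⟯ FΩ]
    (hxρ : ∀ σ : Ω ≃ₐ[K] Ω, ρ σ • x = x)
    {n : ℕ} (hn : n ≠ 0) (G : FΩ) (hG : G ≠ 0)
    (hK : ∀ v : Place Ω FΩ, (n : ℤ) ∣ v.ord G)
    {T : Type*} [Finite T] (κ : FΩ → T)
    (hκ : ∀ σ τ : Ω ≃ₐ[K] Ω, κ (ρ σ • G) = κ (ρ τ • G) → ∃ (c : Ω) (a : FΩ), c ≠ 0 ∧ a ≠ 0 ∧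
      ρ σ • G = algebraMap Ω FΩ c * (ρ τ • G) * a ^ n) :
    ∃ (a : FΩ) (f : LaurentSeries K), a ≠ 0 ∧ f ≠ 0 ∧ f ∈ FK ∧
      ((G * a ^ n : FΩ) : LaurentSeries Ω) = coeffMap (algebraMap K Ω) f := by
  classical
  have hnZ : (n : ℤ) ≠ 0 := Nat.cast_ne_zero.mpr hn
  -- the boundary divisor
  obtain ⟨B, hB⟩ : ∃ B : Divisor Ω FΩ, B = Fermat.Agent.Lib.FF.RR.poleDiv Ω x := ⟨_, rfl⟩
  have hBinv : ∀ (σ : Ω ≃ₐ[K] Ω) (v : Place Ω FΩ), B (ρ σ • v) = B v := by
    intro σ v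
    rw [hB, Fermat.Agent.Lib.FF.RR.poleDiv_apply, Fermat.Agent.Lib.FF.RR.poleDiv_apply]
    have h := SemilinearAut.ord_smul (ρ σ) v x
    rw [hxρ σ] at h
    rw [h]
  have hfin : ∀ D : Divisor Ω FΩ, FiniteDimensional Ω (riemannRochSpace D) :=
    fun D => Fermat.Agent.Lib.FF.RR.finite_L x hx D
  have hdegB : Divisor.degree B = (Module.finrank Ω⟮x⟯ FΩ : ℤ) := by
    rw [hB]; exact Fermat.Agent.Lib.FF.RR.degree_poleDiv x hx
  have hne : ∀ D : Divisor Ω FΩ, ∃ m : ℕ, riemannRochSpace (D + m • B) ≠ ⊥ := by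
    intro D
    obtain ⟨m, hm⟩ : ∃ m : ℕ, m = ((genusFF Ω FΩ : ℤ) - Divisor.degree D).toNat := ⟨_, rfl⟩
    refine ⟨m, ?_⟩
    have hpos : (1 : ℤ) ≤ (Module.finrank Ω⟮x⟯ FΩ : ℤ) := by
      exact_mod_cast (Module.finrank_pos : 0 < Module.finrank Ω⟮x⟯ FΩ)
    have hdeg : (genusFF Ω FΩ : ℤ) ≤ Divisor.degree (D + m • B) := by
      have h0 : Divisor.degree (D + m • B)
          = Divisor.degree D + (m : ℤ) * (Module.finrank Ω⟮x⟯ FΩ : ℤ) := by
        rw [AddMonoidHom.map_add Divisor.degree D (m • B),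
          AddMonoidHom.map_nsmul Divisor.degree m B, hdegB, nsmul_eq_mul]
      rw [h0]
      have h1 : (genusFF Ω FΩ : ℤ) - Divisor.degree D ≤ (m : ℤ) := by
        rw [hm]; exact Int.self_le_toNat _
      have h2 : (0 : ℤ) ≤ (m : ℤ) := Int.natCast_nonneg m
      nlinarith
    obtain ⟨f, hf0, hf⟩ :=
      Fermat.Agent.Lib.FF.RR.exists_ne_zero_of_degree_ge x hx (D + m • B) hdeg
    intro hbot
    have hmem : f ∈ riemannRochSpace (D + m • B) := by
      rw [mem_riemannRochSpace_iff]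
      intro v
      right
      have := hf v
      linarith
    rw [hbot, Submodule.mem_bot] at hmem
    exact hf0 hmem
  -- the divisor `D` with `n · D = div G`
  obtain ⟨D, hD⟩ : ∃ D : Divisor Ω FΩ, D =
      (Fermat.Agent.Lib.FF.Ext.divOf (K := Ω) x G).mapRange (fun k => k / (n : ℤ)) (by simp) :=
    ⟨_, rfl⟩
  have hDv : ∀ v : Place Ω FΩ, (n : ℤ) * D v = v.ord G := by
    intro v
    rw [hD, Finsupp.mapRange_apply, Fermat.Agent.Lib.FF.Ext.divOf_apply]
    exact Int.mul_ediv_cancel' (hK v)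
  exact kummer_descent_of_finite FK hint ρ hρ B hBinv hfin hne hn G hG D hDv
    (dvd_order_of_forall_dvd_ord hG hK) κ hκ

/-! ### The modular case `F_K = K·F₀`, `F_Ω = Ω·F₀` -/

section Modular

variable [Algebra ℚ Ω] (F₀ : IntermediateField ℚ (LaurentSeries ℚ))

omit [IsAlgClosed K] [IsAlgClosed Ω] [CharZero Ω] in
/-- A `K`-automorphism of `Ω` as a `ℚ`-automorphism. -/
def toRatHom : (Ω ≃ₐ[K] Ω) →* (Ω ≃ₐ[ℚ] Ω) where
  toFun σ := (σ : Ω ≃+* Ω).toRatAlgEquiv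
  map_one' := by ext; rfl
  map_mul' _ _ := by ext; rfl

/-- The coefficientwise action of `Aut(Ω/K)` on `Ω·F₀`, as a homomorphism into the Prelude's
group of semilinear automorphisms. -/
def descentRho : (Ω ≃ₐ[K] Ω) →* SemilinearAut Ω (laurentBaseChange Ω F₀) :=
  (arithmeticGalois F₀).comp toRatHom

omit [IsAlgClosed K] [IsAlgClosed Ω] [CharZero Ω] in
theorem coe_descentRho_smul (σ : Ω ≃ₐ[K] Ω) (u : laurentBaseChange Ω F₀) :
    ((descentRho F₀ σ • u : laurentBaseChange Ω F₀) : LaurentSeries Ω)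
      = coeffMap ((σ : Ω ≃ₐ[K] Ω) : Ω →+* Ω) (u : LaurentSeries Ω) := by
  show coeffMap ((toRatHom σ : Ω ≃ₐ[ℚ] Ω) : Ω →+* Ω) (u : LaurentSeries Ω) = _
  exact coeffMap_congr (RingHom.ext fun _ => rfl) _

omit [IsAlgClosed K] [IsAlgClosed Ω] [CharZero Ω] in
/-- Elements with rational coefficients are fixed. -/
theorem descentRho_smul_eq_self (σ : Ω ≃ₐ[K] Ω) {x : laurentBaseChange Ω F₀}
    {x₀ : LaurentSeries ℚ} (hx : (x : LaurentSeries Ω) = coeffEmb Ω x₀) :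
    descentRho F₀ σ • x = x := by
  apply Subtype.ext
  show coeffMap ((toRatHom σ : Ω ≃ₐ[ℚ] Ω) : Ω →+* Ω) (x : LaurentSeries Ω) = _
  rw [hx, coeffMap_coeffEmb]

/-- **Descent of Kummer elements, modular form.**  Let `G ∈ (Ω·F₀)^×` with all orders divisible by
`n`, and assume the classes modulo `Ω^× · ((Ω·F₀)^×)^n` of its `Aut(Ω/K)`-conjugates are separated
by an invariant `κ` with values in a finite set.  Then `G · a^n ∈ K·F₀` for some `a ≠ 0`. -/
theorem kummer_descent_modular [Algebra ℚ K] (x : laurentBaseChange Ω F₀) {x₀ : LaurentSeries ℚ}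
    (hxc : (x : LaurentSeries Ω) = coeffEmb Ω x₀) (hx : Transcendental Ω x)
    [FiniteDimensional Ω⟮x⟯ (laurentBaseChange Ω F₀)]
    {n : ℕ} (hn : n ≠ 0) (G : laurentBaseChange Ω F₀) (hG : G ≠ 0)
    (hK : ∀ v : Place Ω (laurentBaseChange Ω F₀), (n : ℤ) ∣ v.ord G)
    {T : Type*} [Finite T] (κ : laurentBaseChange Ω F₀ → T)
    (hκ : ∀ σ τ : Ω ≃ₐ[K] Ω, κ (descentRho F₀ σ • G) = κ (descentRho F₀ τ • G) →
      ∃ (c : Ω) (a : laurentBaseChange Ω F₀), c ≠ 0 ∧ a ≠ 0 ∧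
        descentRho F₀ σ • G
          = algebraMap Ω (laurentBaseChange Ω F₀) c * (descentRho F₀ τ • G) * a ^ n) :
    ∃ (a : laurentBaseChange Ω F₀) (f : laurentBaseChange K F₀), a ≠ 0 ∧ f ≠ 0 ∧
      ((G * a ^ n : laurentBaseChange Ω F₀) : LaurentSeries Ω)
        = coeffMap (algebraMap K Ω) (f : LaurentSeries K) := by
  obtain ⟨a, f, ha, hf, hfK, h⟩ := kummer_descent_ff (laurentBaseChange K F₀)
    (fun y hy => mem_laurentBaseChange_of_coeffMap_mem F₀ hy) (descentRho F₀)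
    (coe_descentRho_smul F₀) x hx (fun σ => descentRho_smul_eq_self F₀ σ hxc) hn G hG hK κ hκ
  exact ⟨a, ⟨f, hfK⟩, ha, fun h0 => hf (congrArg Subtype.val h0), h⟩

end Modular

end Fermat.Agent.Lib.Descent
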