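import Mathlib
import Fermat.Agent.ESJ.Jac.Defs
import Fermat.Agent.Lib.Descent.KummerFF

/-!
# JAC-DESC: descent of Kummer elements from `F_ℂ` to `F_ℚ̄` for the modular function fields

`descent_of_finite` is the statement of task JAC-DESC (with the two permitted extra hypotheses:
`j` is transcendental over `ℂ` and `F_ℂ` is finite over `ℂ(j)`), deduced from
`kummer_descent_modular`.
-/

set_option autoImplicit false

noncomputable section

namespace Fermat.Agent.Lib.Descent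

open ModularCurve AlgebraicCurve IntermediateField Fermat.Agent.S24 Fermat.Agent.ESJ.Jac

/-- **JAC-DESC.** A Kummer element `G` of `F_ℂ` whose `Aut(ℂ)`-conjugates fall into finitely many
classes modulo `n`-th powers is, up to an `n`-th power, defined over `ℚ̄`. -/
theorem descent_of_finite (N : ℕ) [NeZero N] {n : ℕ} (hn : 0 < n) (G : FNK ℂ N)
    (hG : IsKummerElt ℂ (FNK ℂ N) n G)
    (htr : Transcendental ℂ (jBarK ℂ N)) [FiniteDimensional ℂ⟮jBarK ℂ N⟯ (FNK ℂ N)]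
    (hfin : ∃ S : Finset (FNK ℂ N), ∀ σ : ℂ ≃ₐ[ℚ] ℂ, ∃ s ∈ S, ∃ c : FNK ℂ N, c ≠ 0 ∧
      arithmeticGalois (modularFunctionFieldFull N) σ • G = c ^ n * s) :
    ∃ x : FNK ℂ N, x ≠ 0 ∧ ∃ f : FN N,
      ((x ^ n * G : FNK ℂ N) : LaurentSeries ℂ) = coeffMap iotaK (f : LaurentSeries KQ) := by
  classical
  let _ : Algebra KQ ℂ := iotaK.toAlgebra
  obtain ⟨S, hS⟩ := hfin
  -- the invariant: a chosen representative in `S`
  have hex : ∀ σ : ℂ ≃ₐ[KQ] ℂ, ∃ s : S, ∃ c : FNK ℂ N, c ≠ 0 ∧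
      descentRho (modularFunctionFieldFull N) σ • G = c ^ n * (s : FNK ℂ N) := by
    intro σ
    obtain ⟨s, hs, c, hc, h⟩ := hS (toRatHom σ)
    exact ⟨⟨s, hs⟩, c, hc, h⟩
  let κ : FNK ℂ N → Set S := fun G' =>
    {s : S | ∃ c : FNK ℂ N, c ≠ 0 ∧ G' = c ^ n * (s : FNK ℂ N)}
  have hκ : ∀ σ τ : ℂ ≃ₐ[KQ] ℂ,
      κ (descentRho (modularFunctionFieldFull N) σ • G)
        = κ (descentRho (modularFunctionFieldFull N) τ • G) →
      ∃ (c : ℂ) (a : FNK ℂ N), c ≠ 0 ∧ a ≠ 0 ∧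
        descentRho (modularFunctionFieldFull N) σ • G
          = algebraMap ℂ (FNK ℂ N) c * (descentRho (modularFunctionFieldFull N) τ • G) * a ^ n := by
    intro σ τ h
    obtain ⟨s, c₁, hc₁, hσ⟩ := hex σ
    have hs : s ∈ κ (descentRho (modularFunctionFieldFull N) τ • G) := by
      rw [← h]
      exact ⟨c₁, hc₁, hσ⟩
    obtain ⟨c₂, hc₂, hτ⟩ := hs
    refine ⟨1, c₁ / c₂, one_ne_zero, div_ne_zero hc₁ hc₂, ?_⟩
    rw [map_one, one_mul, hσ, hτ, div_pow]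
    have hc₂n : c₂ ^ n ≠ 0 := pow_ne_zero _ hc₂
    field_simp
  obtain ⟨a, f, ha, -, h⟩ := kummer_descent_modular (K := KQ) (Ω := ℂ)
    (modularFunctionFieldFull N) (jBarK ℂ N) (x₀ := qExpand ℚ 1 jq) rfl htr
    (Nat.pos_iff_ne_zero.mp hn) G hG.1 hG.2 κ hκ
  refine ⟨a, ha, f, ?_⟩
  rw [mul_comm]
  exact h

end Fermat.Agent.Lib.Descent
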